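/-
Program S35 (zero-regret prework), leaf NEW-0, file Extend (helper13).  Mathlib only.

EXTENSION OF AN EMBEDDING TO THE ALGEBRAIC NUMBERS.

`s35new_extend` : `R` a domain with injective ring homomorphisms `iC : R → ℂ`, `iK : R → K` (`K` a
field).  Then there are a field `E`, ring homomorphisms `jC : E → ℂ`, `jK : E → K̄` (an algebraic
closure of `K`) and `e : R → E` with `jC ∘ e = iC`, `jK ∘ e = (K → K̄) ∘ iK`, such that every
algebraic integer `z ∈ ℂ` is in the image of `jC`.
-/
import Mathlib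

set_option autoImplicit false

namespace Fermat.Agent.S35

/-- field version of `s35new_extend`. -/
theorem s35new_extend_field {F₀ : Type*} [Field F₀] (iC₀ : F₀ →+* ℂ) {K : Type*} [Field K]
    (iK₀ : F₀ →+* K) :
    ∃ (E : Type) (_ : Field E) (jC : E →+* ℂ) (jK : E →+* AlgebraicClosure K) (e : F₀ →+* E),
      jC.comp e = iC₀ ∧ jK.comp e = (algebraMap K (AlgebraicClosure K)).comp iK₀ ∧
      ∀ z : ℂ, IsIntegral ℤ z → ∃ x : E, jC x = z := by
  letI algC : Algebra F₀ ℂ := iC₀.toAlgebra
  letI algK : Algebra F₀ (AlgebraicClosure K) :=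
    ((algebraMap K (AlgebraicClosure K)).comp iK₀).toAlgebra
  let E : IntermediateField F₀ ℂ := algebraicClosure F₀ ℂ
  let lift : E →ₐ[F₀] AlgebraicClosure K := IsAlgClosed.lift
  refine ⟨E, inferInstance, algebraMap E ℂ, lift.toRingHom, algebraMap F₀ E, ?_, ?_, ?_⟩
  · ext x
    rfl
  · ext x
    exact lift.commutes x
  · intro z hz
    have hz' : IsIntegral F₀ z := hz.tower_top
    exact ⟨⟨z, mem_algebraicClosure_iff'.2 hz'⟩, rfl⟩

/-- **Extension of an embedding to the algebraic integers.** -/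
theorem s35new_extend {R : Type*} [CommRing R] [IsDomain R] (iC : R →+* ℂ)
    (hiC : Function.Injective iC) {K : Type*} [Field K] (iK : R →+* K)
    (hiK : Function.Injective iK) :
    ∃ (E : Type) (_ : Field E) (jC : E →+* ℂ) (jK : E →+* AlgebraicClosure K) (e : R →+* E),
      jC.comp e = iC ∧ jK.comp e = (algebraMap K (AlgebraicClosure K)).comp iK ∧
      ∀ z : ℂ, IsIntegral ℤ z → ∃ x : E, jC x = z := by
  obtain ⟨E, hE, jC, jK, e, h1, h2, h3⟩ :=
    s35new_extend_field (F₀ := FractionRing R) (IsFractionRing.lift hiC) (IsFractionRing.lift hiK)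
  refine ⟨E, hE, jC, jK, e.comp (algebraMap R (FractionRing R)), ?_, ?_, h3⟩
  · rw [← RingHom.comp_assoc, h1]
    ext x
    simp
  · rw [← RingHom.comp_assoc, h2]
    ext x
    simp

end Fermat.Agent.S35
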