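/-
Program S35 (zero-regret prework), leaf NEW-0, file Complex (helper13).

A NEWFORM SYSTEM DOES NOT OCCUR IN THE COHOMOLOGY OF A PROPER DIVISOR LEVEL.

* `s35new_es` : the Eichler–Shimura output step of `S41/ES/Main.lean` with the `T_ℓ` only (no
  `U`-clause): a nonzero parabolic class `φ ∈ Hom(Γ₀(M)^ab, ℂ)` which is an eigenvector of the
  `T_ℓ`, `ℓ ∈ PP`, yields a normalised eigenform `g ∈ S₂(Γ₀(M))` with `a_ℓ(g) = λ_ℓ`, `ℓ ∈ PP`.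
* `s35new_complex` : if `g` is a newform of level `N`, `M ∣ N`, `M ≠ N`, then every parabolic class
  `φ ∈ Hom(Γ₀(M)^ab, ℂ)` with `φ ∘ T_ℓ = a_ℓ(g) φ` for all primes `ℓ ∤ N` is `0`.
-/
import Fermat.Agent.S41.ES.Main
import Fermat.Prelude.Def_CuspForm_Newforms

set_option autoImplicit false

namespace Fermat.Agent.S35

open Fermat.Agent.S16LB Fermat.Agent.S21 Fermat.Agent.S49 Fermat.Agent.G Fermat.Agent.S41
open CongruenceSubgroup ModularCurve ModularCurve.Period ModularForm ModularFormClass Module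
open scoped MatrixGroups BigOperators

noncomputable section

/-- **ES, output step, `T_ℓ` only.** -/
theorem s35new_es (M : ℕ) [NeZero M] (PP : Set ℕ)
    (hPP : ∀ ℓ ∈ PP, ℓ.Prime ∧ ¬ ℓ ∣ M) (φ : s16lbAb M →+ ℂ)
    (hpar : φ.comp (s16lbCls M) ∈ parabolicHoms ℂ (Gamma0 M) ℂ) (hφ : φ ≠ 0)
    (lam : ℕ → ℂ) (hT : ∀ ℓ ∈ PP, φ.comp (gprT M ℓ) = lam ℓ • φ) :
    ∃ g : CuspForm (Gamma0 M) 2, g.IsNormalizedEigenform ∧ ∀ ℓ ∈ PP, qCoeff ⇑g ℓ = lam ℓ := by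
  -- the pair of forms
  have hrange : φ.comp (s16lbCls M) ∈ LinearMap.range (periodHomPair M) := by
    rw [(Fermat.Agent.S21.result M).2]; exact hpar
  obtain ⟨⟨f, g⟩, hfg⟩ := hrange
  -- the joint eigenspace
  let E : Submodule ℂ (CuspForm (Gamma0 M) 2) :=
    { carrier := {h | ∀ ℓ (hℓ : ℓ ∈ PP),
          CuspForm.heckeTLin 2 (hPP ℓ hℓ).1 (hPP ℓ hℓ).2 h = lam ℓ • h}
      add_mem' := by
        intro a b ha hb ℓ hℓ
        rw [map_add, ha ℓ hℓ, hb ℓ hℓ, smul_add]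
      zero_mem' := by
        intro ℓ hℓ
        rw [map_zero, smul_zero]
      smul_mem' := by
        intro c a ha ℓ hℓ
        rw [map_smul, ha ℓ hℓ, smul_comm] }
  have hmemE : ∀ h : CuspForm (Gamma0 M) 2, h ∈ E ↔
      ∀ ℓ (hℓ : ℓ ∈ PP), CuspForm.heckeTLin 2 (hPP ℓ hℓ).1 (hPP ℓ hℓ).2 h = lam ℓ • h :=
    fun h => Iff.rfl
  have hfE : f ∈ E ∧ g ∈ E := by
    have hTfg : ∀ ℓ (hℓ : ℓ ∈ PP),
        CuspForm.heckeTLin 2 (hPP ℓ hℓ).1 (hPP ℓ hℓ).2 f = lam ℓ • f ∧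
        CuspForm.heckeTLin 2 (hPP ℓ hℓ).1 (hPP ℓ hℓ).2 g = lam ℓ • g := fun ℓ hℓ =>
      s41es_eigen_pair M (s41es_compat_T M (hPP ℓ hℓ).1 (hPP ℓ hℓ).2) φ (lam ℓ) (hT ℓ hℓ) f g hfg
    exact ⟨fun ℓ hℓ => (hTfg ℓ hℓ).1, fun ℓ hℓ => (hTfg ℓ hℓ).2⟩
  have hE : E ≠ ⊥ := by
    intro hbot
    have hf0 : f = 0 := by
      have := hfE.1; rw [hbot, Submodule.mem_bot] at this; exact this
    have hg0 : g = 0 := by
      have := hfE.2; rw [hbot, Submodule.mem_bot] at this; exact this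
    apply hφ
    have h0 : φ.comp (s16lbCls M) = 0 := by
      rw [← hfg, hf0, hg0]
      exact map_zero _
    refine s16lbAb_ext fun γ => ?_
    have := DFunLike.congr_fun h0 γ
    simpa using this
  -- stability under the Hecke ring
  have hst : ∀ t : HT M, ∀ w ∈ E, rho M t w ∈ E := by
    intro t w hw
    rw [hmemE] at hw ⊢
    intro ℓ hℓ
    have h1 := rho_comm (rho M)
      (CuspForm.heckeAlgebra.T (hPP ℓ hℓ).1 (hPP ℓ hℓ).2 (Set.notMem_empty ℓ)) t w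
    rw [rho_apply, CuspForm.heckeAlgebra.coe_T, hw ℓ hℓ, map_smul] at h1
    exact h1
  obtain ⟨v, χ, hvE, hv0, hχ⟩ := s41es_exists_eigen M E hE hst
  obtain ⟨g₀, hg₀, hcoef⟩ := s41es_exists_normalized M hv0 hχ
  have hinj : Function.Injective fun c : ℂ => c • v := smul_left_injective ℂ hv0
  rw [hmemE] at hvE
  refine ⟨g₀, hg₀, fun ℓ hℓ => ?_⟩
  rw [hcoef ℓ (hPP ℓ hℓ).1]
  simp only [lamOf, dif_pos (hPP ℓ hℓ).1, dif_neg (hPP ℓ hℓ).2]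
  apply hinj
  simp only
  rw [← hχ, rho_apply, CuspForm.heckeAlgebra.coe_T, hvE ℓ hℓ]

/-- **NEW-0 over `ℂ`.** The system of eigenvalues of a newform of level `N` does not occur in
the parabolic cohomology of a proper divisor level `M ∣ N`. -/
theorem s35new_complex {N : ℕ} (M : ℕ) [NeZero M] (hMN : M ∣ N) (hne : M ≠ N)
    {g : CuspForm (Gamma0 N) 2} (hg : g.IsNewform) (φ : s16lbAb M →+ ℂ)
    (hpar : φ.comp (s16lbCls M) ∈ parabolicHoms ℂ (Gamma0 M) ℂ)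
    (hT : ∀ ℓ : ℕ, ℓ.Prime → ¬ ℓ ∣ N → φ.comp (gprT M ℓ) = qCoeff ⇑g ℓ • φ) : φ = 0 := by
  by_contra hφ
  obtain ⟨g', hg', hcoef⟩ := s35new_es M {ℓ | ℓ.Prime ∧ ¬ ℓ ∣ N}
    (fun ℓ hℓ => ⟨hℓ.1, fun h => hℓ.2 (h.trans hMN)⟩) φ hpar hφ (fun ℓ => qCoeff ⇑g ℓ)
    (fun ℓ hℓ => hT ℓ hℓ.1 hℓ.2)
  exact hg.2 M hMN hne ⟨g', hg', fun ℓ hℓ hℓN => hcoef ℓ ⟨hℓ, hℓN⟩⟩

end

end Fermat.Agent.S35
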