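/-
Program S35 (zero-regret prework), leaf NEW-0, file Descend (helper13).

CHANGE OF COEFFICIENT FIELD FOR SYSTEMS OF EIGENVALUES (pure linear algebra, Mathlib only).

`s35new_descend` : let `H` be an abelian group with a family of endomorphisms `θ i`, `PE ⊆ H`, and
`a i ∈ E` a family of elements of a field `E`, mapped to two fields `K` and `L` by `iK`, `iL`.  If
there is a NONZERO character `ω : H →+ K` killing `PE` with `ω ∘ θ i = iK (a i) • ω` for all `i`,
then there is a NONZERO character `φ : H →+ L` killing `PE` with `φ ∘ θ i = iL (a i) • φ`.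

(Proof: the `E`-space `W = E ⊗ H` modulo the `E`-span `U` of `1 ⊗ s`, `s ∈ PE`, and of the
`1 ⊗ θ i h - a i ⊗ h` is nonzero, since `ω` induces a nonzero `E`-linear map `W/U → K`; an
`E`-linear form `f ≠ 0` on `W/U` gives `φ h := iL (f (1 ⊗ h))`.)
-/
import Mathlib

set_option autoImplicit false

namespace Fermat.Agent.S35

open scoped TensorProduct

/-- **Change of coefficient field for a system of eigenvalues.** -/
theorem s35new_descend {H : Type*} [AddCommGroup H] (PE : Set H) {I : Type*} (θ : I → H →+ H)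
    {E K L : Type*} [Field E] [Field K] [Field L] (iK : E →+* K) (iL : E →+* L) (a : I → E)
    (ω : H →+ K) (hω : ω ≠ 0) (hPE : ∀ s ∈ PE, ω s = 0)
    (heig : ∀ i, ω.comp (θ i) = iK (a i) • ω) :
    ∃ φ : H →+ L, φ ≠ 0 ∧ (∀ s ∈ PE, φ s = 0) ∧ ∀ i, φ.comp (θ i) = iL (a i) • φ := by
  classical
  let _ : Algebra E K := iK.toAlgebra
  have hsmul : ∀ (e : E) (k : K), e • k = iK e * k := fun e k => rfl
  -- the `E`-linear extension of `ω`
  let ωh : E ⊗[ℤ] H →ₗ[E] K := LinearMap.liftBaseChange E ω.toIntLinearMap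
  have hωh : ∀ (e : E) (h : H), ωh (e ⊗ₜ[ℤ] h) = iK e * ω h := by
    intro e h
    simp only [ωh, LinearMap.liftBaseChange_tmul, AddMonoidHom.coe_toIntLinearMap, hsmul]
  -- the relations
  let S : Set (E ⊗[ℤ] H) :=
    {x | (∃ s ∈ PE, x = (1 : E) ⊗ₜ[ℤ] s) ∨
      ∃ (i : I) (h : H), x = (1 : E) ⊗ₜ[ℤ] (θ i h) - (a i) ⊗ₜ[ℤ] h}
  let U : Submodule E (E ⊗[ℤ] H) := Submodule.span E S
  have hUker : U ≤ LinearMap.ker ωh := by
    rw [Submodule.span_le]
    rintro x (⟨s, hs, rfl⟩ | ⟨i, h, rfl⟩)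
    · rw [SetLike.mem_coe, LinearMap.mem_ker, hωh, hPE s hs, mul_zero]
    · rw [SetLike.mem_coe, LinearMap.mem_ker, map_sub, hωh, hωh, map_one, one_mul]
      have := DFunLike.congr_fun (heig i) h
      rw [AddMonoidHom.comp_apply, AddMonoidHom.smul_apply, smul_eq_mul] at this
      rw [this, sub_self]
  have hωh0 : ωh ≠ 0 := by
    intro h0
    apply hω
    ext h
    have := hωh 1 h
    rw [h0, LinearMap.zero_apply, map_one, one_mul] at this
    rw [← this, AddMonoidHom.zero_apply]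
  have hU : U < ⊤ := by
    rw [lt_top_iff_ne_top]
    intro htop
    apply hωh0
    refine LinearMap.ext fun x => ?_
    have hx : x ∈ U := by rw [htop]; exact Submodule.mem_top
    have := hUker hx
    rw [LinearMap.mem_ker] at this
    simpa using this
  obtain ⟨f, hf0, hfU⟩ := Submodule.exists_le_ker_of_lt_top U hU
  have hfS : ∀ x ∈ S, f x = 0 := fun x hx => LinearMap.mem_ker.1 (hfU (Submodule.subset_span hx))
  have hf1 : ∀ (e : E) (h : H), f (e ⊗ₜ[ℤ] h) = e * f ((1 : E) ⊗ₜ[ℤ] h) := by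
    intro e h
    have : e ⊗ₜ[ℤ] h = e • ((1 : E) ⊗ₜ[ℤ] h) := by
      rw [TensorProduct.smul_tmul', smul_eq_mul, mul_one]
    rw [this, map_smul, smul_eq_mul]
  let φ : H →+ L :=
    { toFun := fun h => iL (f ((1 : E) ⊗ₜ[ℤ] h))
      map_zero' := by simp
      map_add' := by
        intro x y
        simp only [TensorProduct.tmul_add, map_add] }
  have hφ : ∀ h, φ h = iL (f ((1 : E) ⊗ₜ[ℤ] h)) := fun h => rfl
  refine ⟨φ, ?_, ?_, ?_⟩
  · intro hφ0
    apply hf0
    ext h
    have h1 : φ h = 0 := by rw [hφ0, AddMonoidHom.zero_apply]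
    rw [hφ] at h1
    have h2 : f ((1 : E) ⊗ₜ[ℤ] h) = 0 := by
      have := iL.injective (a₁ := f ((1 : E) ⊗ₜ[ℤ] h)) (a₂ := 0)
      exact this (by rw [h1, map_zero])
    simpa using h2
  · intro s hs
    rw [hφ, hfS _ (Or.inl ⟨s, hs, rfl⟩), map_zero]
  · intro i
    ext h
    have h1 := hfS _ (Or.inr ⟨i, h, rfl⟩)
    rw [map_sub, sub_eq_zero, hf1 (a i) h] at h1
    rw [AddMonoidHom.comp_apply, AddMonoidHom.smul_apply, hφ, hφ, h1, map_mul, smul_eq_mul]

end Fermat.Agent.S35
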