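/-
Program S35 (zero-regret prework), leaf NEW-0, file Field (helper13).

NEW-0 OVER AN ARBITRARY COEFFICIENT FIELD.

`s35new_field` : let `g` be a newform of level `N`, `M ∣ N`, `M ≠ N`.  Let `E` be a field with two
ring homomorphisms `iC : E → ℂ`, `iK : E → K` (`K` ANY field) and `a ℓ ∈ E` with
`iC (a ℓ) = a_ℓ(g)` for the primes `ℓ ∤ N`.  Then every character `ω : Γ₀(M)^ab → K` killing the
parabolic and elliptic classes with `ω ∘ T_ℓ = iK (a ℓ) • ω` for all primes `ℓ ∤ N` is `0`.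

(The system of eigenvalues of a newform does not occur at a proper divisor level, over any field to
which its Hecke field maps: `s35new_descend` moves a nonzero `ω` to `ℂ`, `s35new_complex`.)
-/
import Fermat.Agent.S35.New.Complex
import Fermat.Agent.S35.New.Descend
import Fermat.Agent.G.Asm.Defs

set_option autoImplicit false

namespace Fermat.Agent.S35

open Fermat.Agent.S16LB Fermat.Agent.G
open CongruenceSubgroup ModularCurve ModularCurve.Period ModularFormClass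
open scoped MatrixGroups

/-- the set of parabolic + elliptic classes of `Γ₀(M)^ab` (`trace² ≤ 4`). -/
def s35newPE (M : ℕ) : Set (s16lbAb M) :=
  {x | ∃ γ : Gamma0 M, (((γ : SL(2, ℤ)) : Matrix (Fin 2) (Fin 2) ℤ).trace) ^ 2 ≤ 4 ∧
    s16lbCls M (Additive.ofMul γ) = x}

theorem s35new_kills_iff {M : ℕ} {A : Type*} [AddCommGroup A] (χ : s16lbAb M →+ A) :
    (∀ s ∈ s35newPE M, χ s = 0) ↔ GasmPE χ := by
  constructor
  · intro h γ hγ
    exact h _ ⟨γ, hγ, rfl⟩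
  · rintro h _ ⟨γ, hγ, rfl⟩
    exact h γ hγ

/-- a `ℂ`-valued character killing the parabolic and elliptic classes is a parabolic class. -/
theorem s35new_parabolic {M : ℕ} (φ : s16lbAb M →+ ℂ) (hφ : GasmPE φ) :
    φ.comp (s16lbCls M) ∈ parabolicHoms ℂ (Gamma0 M) ℂ := by
  rw [mem_parabolicHoms_iff]
  intro γ hγ
  rw [AddMonoidHom.comp_apply]
  exact hφ γ (le_of_eq hγ)

/-- **NEW-0 over any field.** -/
theorem s35new_field {N : ℕ} (M : ℕ) [NeZero M] (hMN : M ∣ N) (hne : M ≠ N)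
    {g : CuspForm (Gamma0 N) 2} (hg : g.IsNewform)
    {E K : Type*} [Field E] [Field K] (iC : E →+* ℂ) (iK : E →+* K) (a : ℕ → E)
    (ha : ∀ ℓ : ℕ, ℓ.Prime → ¬ ℓ ∣ N → iC (a ℓ) = qCoeff ⇑g ℓ)
    (ω : s16lbAb M →+ K) (hpe : GasmPE ω)
    (hT : ∀ ℓ : ℕ, ℓ.Prime → ¬ ℓ ∣ N → ω.comp (gprT M ℓ) = iK (a ℓ) • ω) : ω = 0 := by
  by_contra hω
  obtain ⟨φ, hφ0, hφPE, hφT⟩ := s35new_descend (s35newPE M)
    (fun i : {ℓ : ℕ // ℓ.Prime ∧ ¬ ℓ ∣ N} => gprT M i.1) iK iC (fun i => a i.1) ω hω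
    ((s35new_kills_iff ω).mpr hpe) (fun i => hT i.1 i.2.1 i.2.2)
  apply hφ0
  refine s35new_complex M hMN hne hg φ (s35new_parabolic φ ((s35new_kills_iff φ).mp hφPE)) ?_
  intro ℓ hℓ hℓN
  rw [← ha ℓ hℓ hℓN]
  exact hφT ⟨ℓ, hℓ, hℓN⟩

end Fermat.Agent.S35
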