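/-
Program S35 (zero-regret prework), leaf NEW-0, file Exists (helper13).

THE EIGENCHARACTER OF A NEWFORM CAN BE CHOSEN NEW: it kills the images of all the transfers from
proper divisor levels.  This is the replacement of `gad_exists_eigenchar` (G/Adic/EigenChar.lean) in
the S35 wiring; NO strong multiplicity one is needed although the given system `chig` only knows the
`T_ℓ`, `ℓ ∉ S`.

`s35new_exists_eigenchar` : `g` a newform of level `N`, `S` a finite set of primes,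
`chig : 𝕋^S → ℂ` the eigencharacter of `g` away from `S`, `iota : chig.range → K` an INJECTIVE ring
homomorphism to a field `K` of characteristic `0` (for S35: `K = Frac 𝒪'`).  Let `V j :
Γ₀(M' j)^ab → Γ₀(N)^ab` (`M' j ∣ N`, `M' j ≠ N`) be a family of additive maps such that, for
characters `χ` of `Γ₀(N)^ab` with values in fields of characteristic `0` killing the parabolic and
elliptic classes, `χ ∘ V j` kills the parabolic and elliptic classes and
`(χ ∘ T_ℓ) ∘ V j = (χ ∘ V j) ∘ T_ℓ` for the primes `ℓ ∤ N`.  Then there is `ω : Γ₀(N)^ab → K`,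
`ω ≠ 0`, killing parabolic and elliptic classes, with `ω ∘ T_ℓ = iota (chig T_ℓ) • ω` for `ℓ ∉ S`,
and `ω ∘ V j = 0` for all `j`.

Proof: the period character `ψ` of `g` is an eigencharacter for ALL `T_ℓ`, `ℓ ∤ N`, over `ℂ`; by
`s35new_descend` (ℂ → K̄ along an extension of `iota` to the algebraic closure of `Frac chig.range`
in `ℂ`) the full system occurs over an algebraic closure `K̄` of `K`: `ω₁`.  By `s35new_field`,
`ω₁ ∘ V j = 0`.  Now the conditions "kills PE and the images of the `V j`, eigen for `ℓ ∉ S` with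
eigenvalue `iota (chig T_ℓ)`" are `K`-rational and have the nonzero solution `ω₁` over `K̄`, hence
(`s35new_descend` again, `K̄ → K`) a nonzero solution over `K`.
-/
import Fermat.Agent.S35.New.Field
import Fermat.Agent.S35.New.Extend
import Fermat.Agent.G.Asm.Period
import Fermat.Prelude.Def_CuspForm_HeckeAlgebra

set_option autoImplicit false

namespace Fermat.Agent.S35

open Fermat.Agent.S16LB Fermat.Agent.G
open CongruenceSubgroup ModularCurve ModularCurve.Period ModularFormClass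
open scoped MatrixGroups

/-- **NEW-0, existence form.** -/
theorem s35new_exists_eigenchar {N : ℕ} [NeZero N] {g : CuspForm (Gamma0 N) 2} (hg : g.IsNewform)
    (S : Finset ℕ) (chig : CuspForm.heckeAlgebra N 2 (↑S : Set ℕ) →+* ℂ)
    (hchig : ∀ (ℓ : ℕ) (hℓ : ℓ.Prime) (hℓN : ¬ ℓ ∣ N) (hℓS : ℓ ∉ (↑S : Set ℕ)),
      chig (CuspForm.heckeAlgebra.T hℓ hℓN hℓS) = qCoeff ⇑g ℓ)
    {K : Type} [Field K] [CharZero K] (iota : chig.range →+* K) (hiota : Function.Injective iota)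
    {J : Type*} (M' : J → ℕ) [∀ j, NeZero (M' j)] (hM' : ∀ j, M' j ∣ N ∧ M' j ≠ N)
    (V : ∀ j, s16lbAb (M' j) →+ s16lbAb N)
    (hVPE : ∀ (j : J) (A : Type) [Field A] [CharZero A] (χ : s16lbAb N →+ A),
      GasmPE χ → GasmPE (χ.comp (V j)))
    (hVT : ∀ (j : J) (A : Type) [Field A] [CharZero A] (χ : s16lbAb N →+ A), GasmPE χ →
      ∀ ℓ : ℕ, ℓ.Prime → ¬ ℓ ∣ N →
        (χ.comp (gprT N ℓ)).comp (V j) = (χ.comp (V j)).comp (gprT (M' j) ℓ)) :
    ∃ ω : s16lbAb N →+ K, ω ≠ 0 ∧ GasmPE ω ∧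
      (∀ (ℓ : ℕ) [Fact ℓ.Prime] (hℓN : ¬ ℓ ∣ N) (hℓS : ℓ ∉ (↑S : Set ℕ)),
        ω.comp (gasmTr N ℓ hℓN) =
          iota (chig.rangeRestrict (CuspForm.heckeAlgebra.T Fact.out hℓN hℓS)) • ω) ∧
      ∀ j, ω.comp (V j) = 0 := by
  classical
  -- the period character of `g`
  obtain ⟨hψPE, hψ0, hψT⟩ := gpr_period_eigen hg.1
  set ψ : s16lbAb N →+ ℂ := s16lbDesc (periodMap N g) with hψdef
  obtain ⟨ψ', -, -, hψint⟩ := gasm_period N g hg.1
  have hint : ∀ ℓ : ℕ, ℓ.Prime → ¬ ℓ ∣ N → IsIntegral ℤ (qCoeff ⇑g ℓ) := by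
    intro ℓ hℓ hℓN
    haveI : Fact ℓ.Prime := ⟨hℓ⟩
    obtain ⟨a, ha, -⟩ := hψint ℓ hℓN
    rw [← ha]
    exact a.2
  -- the fields
  obtain ⟨E, hE, jC, jK, e, he1, he2, hsurj⟩ :=
    s35new_extend chig.range.subtype Subtype.val_injective iota hiota
  let Kb := AlgebraicClosure K
  have haEx : ∀ ℓ : ℕ, ∃ x : E, ℓ.Prime → ¬ ℓ ∣ N → jC x = qCoeff ⇑g ℓ := by
    intro ℓ
    by_cases h : ℓ.Prime ∧ ¬ ℓ ∣ N
    · obtain ⟨x, hx⟩ := hsurj _ (hint ℓ h.1 h.2)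
      exact ⟨x, fun _ _ => hx⟩
    · exact ⟨0, fun h1 h2 => absurd ⟨h1, h2⟩ h⟩
  choose aE haE using haEx
  -- compatibility of the two systems away from `S`
  have hcompat : ∀ (ℓ : ℕ) (hℓ : ℓ.Prime) (hℓN : ¬ ℓ ∣ N) (hℓS : ℓ ∉ (↑S : Set ℕ)),
      jK (aE ℓ) = algebraMap K Kb
        (iota (chig.rangeRestrict (CuspForm.heckeAlgebra.T hℓ hℓN hℓS))) := by
    intro ℓ hℓ hℓN hℓS
    set r := chig.rangeRestrict (CuspForm.heckeAlgebra.T hℓ hℓN hℓS) with hr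
    have h1 : aE ℓ = e r := by
      apply jC.injective
      rw [haE ℓ hℓ hℓN, ← hchig ℓ hℓ hℓN hℓS]
      have := RingHom.congr_fun he1 r
      rw [RingHom.comp_apply] at this
      rw [this]
      rfl
    rw [h1]
    exact RingHom.congr_fun he2 r
  -- Step 2: the full system over `K̄`
  obtain ⟨ω₁, hω₁0, hω₁PE, hω₁T⟩ := s35new_descend (s35newPE N)
    (fun i : {ℓ : ℕ // ℓ.Prime ∧ ¬ ℓ ∣ N} => gprT N i.1) jC jK
    (fun i => aE i.1) ψ hψ0
    (by
      rintro _ ⟨γ, hγ, rfl⟩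
      exact hψPE γ hγ)
    (fun i => by
      have := hψT i.1 i.2.1 i.2.2
      rw [this]
      rw [haE i.1 i.2.1 i.2.2])
  have hω₁PE' : GasmPE ω₁ := (s35new_kills_iff ω₁).mp hω₁PE
  haveI : CharZero Kb := charZero_of_injective_algebraMap (algebraMap K Kb).injective
  -- Step 3: NEW-0 over `K̄`
  have hnew : ∀ j, ω₁.comp (V j) = 0 := by
    intro j
    refine s35new_field (M' j) (hM' j).1 (hM' j).2 hg jC jK aE haE
      (ω₁.comp (V j)) (hVPE j Kb ω₁ hω₁PE') ?_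
    intro ℓ hℓ hℓN
    rw [← hVT j Kb ω₁ hω₁PE' ℓ hℓ hℓN, hω₁T ⟨ℓ, hℓ, hℓN⟩]
    rfl
  -- Step 4: descent `K̄ → K`
  obtain ⟨ω, hω0, hωPE, hωT⟩ := s35new_descend
    (s35newPE N ∪ {x | ∃ (j : J) (y : s16lbAb (M' j)), V j y = x})
    (fun i : {ℓ : ℕ // ℓ.Prime ∧ ¬ ℓ ∣ N ∧ ℓ ∉ (↑S : Set ℕ)} => gprT N i.1)
    (algebraMap K Kb) (RingHom.id K)
    (fun i => iota (chig.rangeRestrict (CuspForm.heckeAlgebra.T i.2.1 i.2.2.1 i.2.2.2)))
    ω₁ hω₁0
    (by
      rintro s (hs | ⟨j, y, rfl⟩)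
      · exact hω₁PE s hs
      · have := DFunLike.congr_fun (hnew j) y
        simpa using this)
    (fun i => by
      rw [hω₁T ⟨i.1, i.2.1, i.2.2.1⟩, ← hcompat i.1 i.2.1 i.2.2.1 i.2.2.2])
  refine ⟨ω, hω0, (s35new_kills_iff ω).mp fun s hs => hωPE s (Or.inl hs), ?_, ?_⟩
  · intro ℓ _ hℓN hℓS
    have h4 : gasmTr N ℓ hℓN = gprT N ℓ := (gprT_eq N hℓN).symm
    rw [h4]
    exact hωT ⟨ℓ, Fact.out, hℓN, hℓS⟩
  · intro j
    refine AddMonoidHom.ext fun y => ?_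
    exact hωPE _ (Or.inr ⟨j, y, rfl⟩)

end Fermat.Agent.S35
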