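/-
Program S35 (zero-regret prework), leaf NEW-0, file Iota (helper13).

`s35new_iota_injective` : every ring homomorphism from the range of a character of the Hecke algebra
(an order: integral over `ℤ` by S22) to a domain of characteristic `0` is injective.
-/
import Fermat.Agent.S22

set_option autoImplicit false

namespace Fermat.Agent.S35

/-- the range of a character of the Hecke algebra is integral over `ℤ`. -/
theorem s35new_range_isIntegral {N : ℕ} [NeZero N] {k : ℤ} {S : Set ℕ}
    (chig : CuspForm.heckeAlgebra N k S →+* ℂ) : Algebra.IsIntegral ℤ chig.range := by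
  have : Module.Finite ℤ (CuspForm.heckeAlgebra N k S) := Fermat.Agent.S22.result N k S
  have : Algebra.IsIntegral ℤ (CuspForm.heckeAlgebra N k S) := Algebra.IsIntegral.of_finite ℤ _
  refine ⟨fun x => ?_⟩
  obtain ⟨t, ht⟩ := chig.rangeRestrict_surjective x
  rw [← ht]
  exact (Algebra.IsIntegral.isIntegral (R := ℤ) t).map chig.rangeRestrict.toIntAlgHom

/-- **`iota` is injective.** -/
theorem s35new_iota_injective {N : ℕ} [NeZero N] {k : ℤ} {S : Set ℕ}
    (chig : CuspForm.heckeAlgebra N k S →+* ℂ) {O : Type*} [CommRing O] [IsDomain O] [CharZero O]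
    (iota : chig.range →+* O) : Function.Injective iota := by
  have := s35new_range_isIntegral chig
  rw [RingHom.injective_iff_ker_eq_bot]
  apply Ideal.eq_bot_of_comap_eq_bot (R := ℤ)
  ext n
  rw [Ideal.mem_comap, RingHom.mem_ker, Ideal.mem_bot, eq_intCast, map_intCast, Int.cast_eq_zero]

end Fermat.Agent.S35
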