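/-
Program S35 (zero-regret prework), leaf NEW-0, file Main (helper13).

`s35new_main` : `s35new_exists_eigenchar` in the literal shape of the S35 data (`𝒪'`, `chig`, `iota`,
`K = Frac 𝒪'`, `χ = iota ∘ chig.rangeRestrict`), i.e. the drop-in replacement of the call of
`gad_exists_eigenchar N S hNS ((algebraMap 𝒪' (FractionRing 𝒪')).comp χ)` in `G/Adic/Wire.lean`, with
the extra conclusion `ω ∘ V j = 0` for a family of Hecke-compatible transfers `V j` from proper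
divisor levels.
-/
import Fermat.Agent.S35.New.Exists
import Fermat.Agent.S35.New.Iota

set_option autoImplicit false

namespace Fermat.Agent.S35

open Fermat.Agent.S16LB Fermat.Agent.G
open CongruenceSubgroup ModularFormClass
open scoped MatrixGroups

/-- **NEW-0 in the S35 shape.** -/
theorem s35new_main {N : ℕ} [NeZero N] {g : CuspForm (Gamma0 N) 2} (hg : g.IsNewform)
    (S : Finset ℕ) (𝒪' : Type) [CommRing 𝒪'] [IsDomain 𝒪'] [CharZero 𝒪']
    (chig : CuspForm.heckeAlgebra N 2 (↑S : Set ℕ) →+* ℂ)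
    (hchig : ∀ (ℓ : ℕ) (hℓ : ℓ.Prime) (hℓN : ¬ ℓ ∣ N) (hℓS : ℓ ∉ (↑S : Set ℕ)),
      chig (CuspForm.heckeAlgebra.T hℓ hℓN hℓS) = qCoeff ⇑g ℓ)
    (iota : chig.range →+* 𝒪')
    {J : Type*} (M' : J → ℕ) [∀ j, NeZero (M' j)] (hM' : ∀ j, M' j ∣ N ∧ M' j ≠ N)
    (V : ∀ j, s16lbAb (M' j) →+ s16lbAb N)
    (hVPE : ∀ (j : J) (A : Type) [Field A] [CharZero A] (χ : s16lbAb N →+ A),
      GasmPE χ → GasmPE (χ.comp (V j)))
    (hVT : ∀ (j : J) (A : Type) [Field A] [CharZero A] (χ : s16lbAb N →+ A), GasmPE χ →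
      ∀ ℓ : ℕ, ℓ.Prime → ¬ ℓ ∣ N →
        (χ.comp (gprT N ℓ)).comp (V j) = (χ.comp (V j)).comp (gprT (M' j) ℓ)) :
    ∃ ω : s16lbAb N →+ FractionRing 𝒪', ω ≠ 0 ∧ GasmPE ω ∧
      (∀ (ℓ : ℕ) [Fact ℓ.Prime] (hℓN : ¬ ℓ ∣ N) (hℓS : ℓ ∉ (↑S : Set ℕ)),
        ω.comp (gasmTr N ℓ hℓN) =
          ((algebraMap 𝒪' (FractionRing 𝒪')).comp (iota.comp chig.rangeRestrict))
            (CuspForm.heckeAlgebra.T Fact.out hℓN hℓS) • ω) ∧
      ∀ j, ω.comp (V j) = 0 := by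
  have : CharZero (FractionRing 𝒪') :=
    charZero_of_injective_algebraMap (IsFractionRing.injective 𝒪' (FractionRing 𝒪'))
  have hinj : Function.Injective ((algebraMap 𝒪' (FractionRing 𝒪')).comp iota) :=
    (IsFractionRing.injective 𝒪' (FractionRing 𝒪')).comp (s35new_iota_injective chig iota)
  exact s35new_exists_eigenchar hg S chig hchig ((algebraMap 𝒪' (FractionRing 𝒪')).comp iota) hinj
    M' hM' V hVPE hVT

end Fermat.Agent.S35
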