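/-
Program S35 (zero-regret prework), leaf NEW-0, file Old (helper13).

NEW-0 FOR THE TWO TRANSFERS OF `S41/HK` (ON MAIN).  For `N = M' q`, `q ∤ M'` prime, and Atkin–Lehner
data `D : S41hkAL M' q`, main has the two transfers `D.Va`, `D.Vb = D.W ∘ D.Va :
Γ₀(M')^ab → Γ₀(M' q)^ab` (characters are pushed forward by precomposition: `ψ ↦ ψ ∘ Va` is `α_*`,
`ψ ↦ ψ ∘ Vb` is `φ_*`), they commute with the `T_ℓ`, `ℓ ∤ M' q` (`s41hk_Va_comp_T`,
`s41hk_Vb_comp_T`) and preserve the parabolic + elliptic subgroups (`s41hk_trAb_mem_PE`).  So the two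
inputs `hVPE`, `hVT` of `s35new_main` hold for them, and:

`s35new_main_old` : the eigencharacter `ω : Γ₀(N)^ab → Frac 𝒪'` of a newform `g` of level `N` (for the
system `iota ∘ chig` away from `S`) can be chosen with `ω ∘ Va = 0 = ω ∘ Vb` for ALL factorisations
`N = M' q` (`q` prime) and all Atkin–Lehner data.
-/
import Fermat.Agent.S35.New.Main
import Fermat.Agent.S41.HK.Main

set_option autoImplicit false

namespace Fermat.Agent.S35

open Fermat.Agent.S16LB Fermat.Agent.G Fermat.Agent.S41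
open CongruenceSubgroup ModularFormClass
open scoped MatrixGroups

/-- transport of `Γ₀(·)^ab` along an equality of levels. -/
def s35newCast {N₁ N₂ : ℕ} (h : N₁ = N₂) : s16lbAb N₁ →+ s16lbAb N₂ :=
  h ▸ AddMonoidHom.id (s16lbAb N₁)

theorem s35newCast_rfl {N₁ : ℕ} : s35newCast (rfl : N₁ = N₁) = AddMonoidHom.id _ := rfl

theorem s35newCast_gprT {N₁ N₂ : ℕ} (h : N₁ = N₂) (ℓ : ℕ) :
    (gprT N₂ ℓ).comp (s35newCast h) = (s35newCast h).comp (gprT N₁ ℓ) := by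
  subst h
  rfl

theorem s35newCast_PE {N₁ N₂ : ℕ} (h : N₁ = N₂) {A : Type*} [AddCommGroup A]
    (χ : s16lbAb N₂ →+ A) (hχ : GasmPE χ) : GasmPE (χ.comp (s35newCast h)) := by
  subst h
  exact hχ

theorem s35new_gasmPE_iff {M : ℕ} {A : Type*} [AddCommGroup A] (χ : s16lbAb M →+ A) :
    GasmPE χ ↔ gprPE M ≤ χ.ker :=
  gpr_mem_homPE_iff_le_ker χ

section Transfers

variable {M' q : ℕ} [Fact q.Prime] (D : S41hkAL M' q)

/-- `Va` preserves the parabolic + elliptic subgroups. -/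
theorem s35new_Va_mem_PE {x : s16lbAb M'} (hx : x ∈ gprPE M') : D.Va x ∈ gprPE (M' * q) :=
  s41hk_trAb_mem_PE D.VaCorr rfl rfl hx

/-- `W` preserves the parabolic + elliptic subgroup. -/
theorem s35new_W_mem_PE {x : s16lbAb (M' * q)} (hx : x ∈ gprPE (M' * q)) :
    D.W x ∈ gprPE (M' * q) :=
  s41hk_trAb_mem_PE (s41hkConjCorr D.w.mat_det_ne_zero D.w.conjugates) rfl rfl hx

/-- `Vb` preserves the parabolic + elliptic subgroups. -/
theorem s35new_Vb_mem_PE {x : s16lbAb M'} (hx : x ∈ gprPE M') : D.Vb x ∈ gprPE (M' * q) :=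
  s35new_W_mem_PE D (s35new_Va_mem_PE D hx)

theorem s35new_Va_PE {A : Type*} [AddCommGroup A] (χ : s16lbAb (M' * q) →+ A) (hχ : GasmPE χ) :
    GasmPE (χ.comp D.Va) := by
  rw [s35new_gasmPE_iff] at hχ ⊢
  intro x hx
  exact hχ (s35new_Va_mem_PE D hx)

theorem s35new_Vb_PE {A : Type*} [AddCommGroup A] (χ : s16lbAb (M' * q) →+ A) (hχ : GasmPE χ) :
    GasmPE (χ.comp D.Vb) := by
  rw [s35new_gasmPE_iff] at hχ ⊢
  intro x hx
  exact hχ (s35new_Vb_mem_PE D hx)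

/-- `Va ∘ T_ℓ = T_ℓ ∘ Va` in terms of `gprT`. -/
theorem s35new_Va_comp_gprT (ℓ : ℕ) (hℓ : ℓ.Prime) (hℓN : ¬ ℓ ∣ M' * q) :
    D.Va.comp (gprT M' ℓ) = (gprT (M' * q) ℓ).comp D.Va := by
  haveI : Fact ℓ.Prime := ⟨hℓ⟩
  have hℓ' : ¬ ℓ ∣ M' := fun h => hℓN (dvd_mul_of_dvd_left h q)
  rw [gprT_eq M' hℓ', gprT_eq (M' * q) hℓN]
  exact s41hk_Va_comp_T D ℓ hℓN hℓ'

/-- `Vb ∘ T_ℓ = T_ℓ ∘ Vb` in terms of `gprT`. -/
theorem s35new_Vb_comp_gprT (ℓ : ℕ) (hℓ : ℓ.Prime) (hℓN : ¬ ℓ ∣ M' * q) :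
    D.Vb.comp (gprT M' ℓ) = (gprT (M' * q) ℓ).comp D.Vb := by
  haveI : Fact ℓ.Prime := ⟨hℓ⟩
  have hℓ' : ¬ ℓ ∣ M' := fun h => hℓN (dvd_mul_of_dvd_left h q)
  rw [gprT_eq M' hℓ', gprT_eq (M' * q) hℓN]
  exact s41hk_Vb_comp_T D ℓ hℓN hℓ'

end Transfers

/-- the index set of all the transfers into level `N`: factorisations `N = M' q`, Atkin–Lehner
data, and the choice `Va` (`true`) / `Vb` (`false`). -/
structure S35newIdx (N : ℕ) where
  M' : ℕ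
  q : ℕ
  hq : q.Prime
  h : M' * q = N
  D : S41hkAL M' q
  b : Bool

/-- the transfer attached to an index. -/
noncomputable def S35newIdx.V {N : ℕ} (j : S35newIdx N) : s16lbAb j.M' →+ s16lbAb N :=
  haveI : Fact j.q.Prime := ⟨j.hq⟩
  (s35newCast j.h).comp (if j.b then j.D.Va else j.D.Vb)

/-- **NEW-0 for the transfers of `S41/HK`.** -/
theorem s35new_main_old {N : ℕ} [NeZero N] {g : CuspForm (Gamma0 N) 2} (hg : g.IsNewform)
    (S : Finset ℕ) (𝒪' : Type) [CommRing 𝒪'] [IsDomain 𝒪'] [CharZero 𝒪']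
    (chig : CuspForm.heckeAlgebra N 2 (↑S : Set ℕ) →+* ℂ)
    (hchig : ∀ (ℓ : ℕ) (hℓ : ℓ.Prime) (hℓN : ¬ ℓ ∣ N) (hℓS : ℓ ∉ (↑S : Set ℕ)),
      chig (CuspForm.heckeAlgebra.T hℓ hℓN hℓS) = qCoeff ⇑g ℓ)
    (iota : chig.range →+* 𝒪') :
    ∃ ω : s16lbAb N →+ FractionRing 𝒪', ω ≠ 0 ∧ GasmPE ω ∧
      (∀ (ℓ : ℕ) [Fact ℓ.Prime] (hℓN : ¬ ℓ ∣ N) (hℓS : ℓ ∉ (↑S : Set ℕ)),
        ω.comp (gasmTr N ℓ hℓN) =
          ((algebraMap 𝒪' (FractionRing 𝒪')).comp (iota.comp chig.rangeRestrict))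
            (CuspForm.heckeAlgebra.T Fact.out hℓN hℓS) • ω) ∧
      ∀ (M' q : ℕ) [Fact q.Prime] (h : M' * q = N) (D : S41hkAL M' q),
        ω.comp ((s35newCast h).comp D.Va) = 0 ∧ ω.comp ((s35newCast h).comp D.Vb) = 0 := by
  have hN : N ≠ 0 := NeZero.ne N
  haveI hne : ∀ j : S35newIdx N, NeZero j.M' := fun j =>
    ⟨fun h0 => hN (by rw [← j.h, h0, zero_mul])⟩
  have hM' : ∀ j : S35newIdx N, j.M' ∣ N ∧ j.M' ≠ N := by
    intro j
    refine ⟨⟨j.q, j.h.symm⟩, fun h => ?_⟩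
    have h1 : j.M' * j.q = j.M' * 1 := by rw [mul_one, j.h, h]
    have h2 := Nat.eq_of_mul_eq_mul_left (Nat.pos_of_ne_zero (hne j).out) h1
    exact j.hq.one_lt.ne' h2
  obtain ⟨ω, hω0, hωPE, hωT, hωV⟩ := s35new_main hg S 𝒪' chig hchig iota
    (fun j : S35newIdx N => j.M') hM' (fun j => j.V)
    (by
      intro j A _ _ χ hχ
      haveI : Fact j.q.Prime := ⟨j.hq⟩
      have h1 := s35newCast_PE j.h χ hχ
      unfold S35newIdx.V
      rw [← AddMonoidHom.comp_assoc]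
      by_cases hb : j.b = true
      · rw [if_pos hb]
        exact s35new_Va_PE j.D _ h1
      · rw [if_neg hb]
        exact s35new_Vb_PE j.D _ h1)
    (by
      intro j A _ _ χ _ ℓ hℓ hℓN
      haveI : Fact j.q.Prime := ⟨j.hq⟩
      have hℓN' : ¬ ℓ ∣ j.M' * j.q := by rw [j.h]; exact hℓN
      have key : (gprT N ℓ).comp j.V = j.V.comp (gprT j.M' ℓ) := by
        unfold S35newIdx.V
        rw [← AddMonoidHom.comp_assoc, s35newCast_gprT j.h ℓ, AddMonoidHom.comp_assoc,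
          AddMonoidHom.comp_assoc]
        congr 1
        by_cases hb : j.b = true
        · rw [if_pos hb]
          exact (s35new_Va_comp_gprT j.D ℓ hℓ hℓN').symm
        · rw [if_neg hb]
          exact (s35new_Vb_comp_gprT j.D ℓ hℓ hℓN').symm
      rw [AddMonoidHom.comp_assoc, key, ← AddMonoidHom.comp_assoc])
  refine ⟨ω, hω0, hωPE, hωT, ?_⟩
  intro M' q hq h D
  refine ⟨?_, ?_⟩
  · have := hωV ⟨M', q, hq.out, h, D, true⟩
    simpa [S35newIdx.V] using this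
  · have := hωV ⟨M', q, hq.out, h, D, false⟩
    simpa [S35newIdx.V] using this

end Fermat.Agent.S35
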