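/-
Program S35, leaf NEW-0, file Box (helper13).

`hNew0` OF `s35asm_main` (helper2, `S35/Asm.lean`) IN ITS LITERAL SHAPE, for the set of old classes

  `s35newPEq M` := the union, over all factorisations `M = M' q` (`q` prime) and all Atkin–Lehner
  data `D : S41hkAL M' q`, of the images of the two transfers `D.Va`, `D.Vb : Γ₀(M')^ab → Γ₀(M)^ab`
  of main's `S41/HK` (transported along `M' * q = M`).

`s35new_hNew0` : for a newform `g` of level `M` with `chig`, `hchig`, `iota` as in the frozen S35 there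
is `ω : Γ₀(M)^ab → Frac 𝒪'`, `ω ≠ 0`, killing `gadwPE M ∪ s35newPEq M`, with the `S`-anemic system of
`iota ∘ chig`.
-/
import Fermat.Agent.S35.New.Old
import Fermat.Agent.G.Adic.Wire

set_option autoImplicit false

namespace Fermat.Agent.S35

open Fermat.Agent.S16LB Fermat.Agent.G Fermat.Agent.S41
open CongruenceSubgroup ModularFormClass
open scoped MatrixGroups

/-- the old classes of `Γ₀(M)^ab`: images of the transfers from the levels `M / q`. -/
def s35newPEq (M : ℕ) : Set (s16lbAb M) :=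
  {x | ∃ (M' q : ℕ) (hq : q.Prime) (h : M' * q = M) (D : S41hkAL M' q) (y : s16lbAb M'),
    haveI : Fact q.Prime := ⟨hq⟩
    x = s35newCast h (D.Va y) ∨ x = s35newCast h (D.Vb y)}

theorem s35new_Va_mem_PEq {M M' q : ℕ} [hq : Fact q.Prime] (h : M' * q = M) (D : S41hkAL M' q)
    (y : s16lbAb M') : s35newCast h (D.Va y) ∈ s35newPEq M :=
  ⟨M', q, hq.out, h, D, y, Or.inl rfl⟩

theorem s35new_Vb_mem_PEq {M M' q : ℕ} [hq : Fact q.Prime] (h : M' * q = M) (D : S41hkAL M' q)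
    (y : s16lbAb M') : s35newCast h (D.Vb y) ∈ s35newPEq M :=
  ⟨M', q, hq.out, h, D, y, Or.inr rfl⟩

/-- a character kills `s35newPEq M` iff it kills both transfers for all factorisations. -/
theorem s35new_kills_PEq_iff {M : ℕ} {A : Type*} [AddCommGroup A] (χ : s16lbAb M →+ A) :
    (∀ s ∈ s35newPEq M, χ s = 0) ↔
      ∀ (M' q : ℕ) [Fact q.Prime] (h : M' * q = M) (D : S41hkAL M' q),
        χ.comp ((s35newCast h).comp D.Va) = 0 ∧ χ.comp ((s35newCast h).comp D.Vb) = 0 := by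
  constructor
  · intro hχ M' q _ h D
    refine ⟨AddMonoidHom.ext fun y => ?_, AddMonoidHom.ext fun y => ?_⟩
    · exact hχ _ (s35new_Va_mem_PEq h D y)
    · exact hχ _ (s35new_Vb_mem_PEq h D y)
  · rintro hχ _ ⟨M', q, hq, h, D, y, rfl | rfl⟩
    · haveI : Fact q.Prime := ⟨hq⟩
      exact DFunLike.congr_fun (hχ M' q h D).1 y
    · haveI : Fact q.Prime := ⟨hq⟩
      exact DFunLike.congr_fun (hχ M' q h D).2 y

/-- **`hNew0` of `s35asm_main`, literally.** -/
theorem s35new_hNew0 {M : ℕ} [NeZero M] {g : CuspForm (Gamma0 M) 2} (hg : g.IsNewform)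
    (S : Finset ℕ) (O' : Type) [CommRing O'] [IsDomain O'] [CharZero O']
    (chig : CuspForm.heckeAlgebra M 2 (↑S : Set ℕ) →+* ℂ)
    (hchig : ∀ (ℓ : ℕ) (hℓ : ℓ.Prime) (hℓM : ¬ ℓ ∣ M) (hℓS : ℓ ∉ (↑S : Set ℕ)),
      chig (CuspForm.heckeAlgebra.T hℓ hℓM hℓS) = qCoeff ⇑g ℓ)
    (iota : chig.range →+* O') :
    ∃ ω : s16lbAb M →+ FractionRing O', ω ≠ 0 ∧ (∀ s ∈ gadwPE M ∪ s35newPEq M, ω s = 0) ∧
      ∀ (ℓ : ℕ) [Fact ℓ.Prime] (hℓM : ¬ ℓ ∣ M) (hℓS : ℓ ∉ (↑S : Set ℕ)),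
        ω.comp (gasmTr M ℓ hℓM) =
          ((algebraMap O' (FractionRing O')).comp (iota.comp chig.rangeRestrict))
            (CuspForm.heckeAlgebra.T Fact.out hℓM hℓS) • ω := by
  obtain ⟨ω, hω0, hωPE, hωT, hωV⟩ := s35new_main_old hg S O' chig hchig iota
  refine ⟨ω, hω0, ?_, hωT⟩
  rintro s (hs | hs)
  · exact (gadw_kills_iff ω).mpr hωPE s hs
  · exact (s35new_kills_PEq_iff ω).mpr (fun M' q _ h D => hωV M' q h D) s hs

end Fermat.Agent.S35
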