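/-
Program S35, leaf NEW-0 / NAT, file Bridge (helper13).

THE TRANSFER OF NAT (helper22, `S35/Nat/Transfer.lean`: product over the representatives
`Quotient.out` of `Γ₀(M) / Γ₀(M q)`) IS MAIN's TRANSFER `D.Va` (`S41/HK`, representatives `β_x`).

* `s35newNatCorr M q` : the correspondence with representatives `(ξ.out)⁻¹`, cocycle `s35natCoc`;
* `s35new_natCorr_trAb_eq D : (s35newNatCorr M q).trAb = D.Va` (matching lemma of `S41/HK/Corr`);
* `s35new_natTransfer_eq D χ γ` : for every character `χ : Γ₀(M q) →* A` (`A` any commutative group)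
  `s35natTransfer χ γ = χ^ab (D.Va [γ])`;
* `s35new_natTransfer_eq_one` : if `ω : Γ₀(M q)^ab → Additive A` kills the image of `D.Va` then the
  transfer of the corresponding character of `Γ₀(M q)` is trivial.
-/
import Fermat.Agent.S35.Nat.Transfer
import Fermat.Agent.S41.HK.Defs

set_option autoImplicit false

noncomputable section

namespace Fermat.Agent.S35

open Fermat.Agent.S16LB Fermat.Agent.S41
open CongruenceSubgroup
open scoped MatrixGroups

variable (M q : ℕ)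

/-- NAT's transfer as a correspondence of `S41/HK`: representatives `(ξ.out)⁻¹`,
`ξ ∈ Γ₀(M) / Γ₀(M q)`. -/
def s35newNatCorr : S41Corr (GL (Fin 2) ℝ) (Gamma0 (M * q)) (Gamma0 M)
    (S35natQ (Gamma0 (M * q)) (Gamma0 M)) where
  ι₁ := s16lbIota (M * q)
  ι₂ := s16lbIota M
  hι₁ := s16lbIota_injective (M * q)
  α ξ := s16lbIota M (ξ.out)⁻¹
  idx γ ξ := γ⁻¹ • ξ
  coc γ ξ := s35natCoc γ ξ
  spec γ ξ := by
    rw [← map_mul]
    have h : s16lbIota (M * q) (s35natCoc γ ξ) * s16lbIota M ((γ⁻¹ • ξ :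
        S35natQ (Gamma0 (M * q)) (Gamma0 M)).out)⁻¹
        = s16lbIota M (ξ.out⁻¹ * γ) := by
      rw [s16lbIota_apply, s16lbIota_apply, s16lbIota_apply, ← map_mul]
      congr 1
      rw [s35natCoc_coe]
      push_cast
      group
    rw [h]
  idx_one ξ := by rw [inv_one, one_smul]
  idx_mul γ δ ξ := by rw [mul_inv_rev, mul_smul]

variable {M q}

theorem s35newNatCorr_trAb_of [Fintype (S35natQ (Gamma0 (M * q)) (Gamma0 M))] (γ : Gamma0 M) :
    (s35newNatCorr M q).trAb (Additive.ofMul (Abelianization.of γ))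
      = ∑ ξ : S35natQ (Gamma0 (M * q)) (Gamma0 M),
          Additive.ofMul (Abelianization.of (s35natCoc γ ξ)) :=
  S41Corr.trAb_of _ γ

section Match

variable [Fact q.Prime] (D : S41hkAL M q)

/-- the map `x ↦ [β_x⁻¹]` from the index set of `D.VaCorr` to `Γ₀(M) / Γ₀(M q)`. -/
def s35newMatch (x : OnePoint (ZMod q)) : S35natQ (Gamma0 (M * q)) (Gamma0 M) :=
  QuotientGroup.mk (D.beta x)⁻¹

omit [Fact q.Prime] in
/-- `(s35newMatch x).out = β_x⁻¹ c` with `c ∈ Γ₀(M q)`. -/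
theorem s35newMatch_out (x : OnePoint (ZMod q)) :
    ∃ c : Gamma0 (M * q), ((s35newMatch D x).out : Gamma0 M) = (D.beta x)⁻¹ * s41hkIncl M q c := by
  have h1 : (QuotientGroup.mk ((s35newMatch D x).out) : S35natQ (Gamma0 (M * q)) (Gamma0 M))
      = QuotientGroup.mk (D.beta x)⁻¹ := by
    rw [QuotientGroup.out_eq']
    rfl
  rw [QuotientGroup.eq, Subgroup.mem_subgroupOf] at h1
  refine ⟨⟨_, (Gamma0 (M * q)).inv_mem h1⟩, ?_⟩
  apply Subtype.ext
  show (((s35newMatch D x).out : Gamma0 M) : SL(2, ℤ))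
    = ((D.beta x)⁻¹ : Gamma0 M).1 * ((((s35newMatch D x).out)⁻¹ * (D.beta x)⁻¹ : Gamma0 M).1)⁻¹
  push_cast
  group

theorem s35newMatch_injective : Function.Injective (s35newMatch D) := by
  intro x y hxy
  unfold s35newMatch at hxy
  rw [QuotientGroup.eq, Subgroup.mem_subgroupOf] at hxy
  -- `β_x β_y⁻¹ ∈ Γ₀(M q)`
  have hmem : ((D.beta x * (D.beta y)⁻¹ : Gamma0 M) : SL(2, ℤ)) ∈ Gamma0 (M * q) := by
    have : (((D.beta x)⁻¹)⁻¹ * (D.beta y)⁻¹ : Gamma0 M) = D.beta x * (D.beta y)⁻¹ := by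
      rw [inv_inv]
    rw [← this]
    exact hxy
  refine D.VaCorr_distinct x y ⟨_, hmem⟩ ?_
  rw [D.VaCorr_α, D.VaCorr_α, D.VaCorr_ι₁]
  have : s16lbIota (M * q) ⟨_, hmem⟩ = s16lbIota M (D.beta x * (D.beta y)⁻¹) := rfl
  rw [this, ← map_mul, inv_mul_cancel_right]

theorem s35newMatch_surjective : Function.Surjective (s35newMatch D) := by
  intro ξ
  -- `β_∞ · ξ.out⁻¹ = γ' β_y`
  have h := D.VaCorr.spec (ξ.out)⁻¹ (OnePoint.infty : OnePoint (ZMod q))
  rw [D.VaCorr_α, D.VaCorr_α, D.VaCorr_ι₁, D.beta_infty, map_one, one_mul] at h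
  set y := D.VaCorr.idx (ξ.out)⁻¹ (OnePoint.infty : OnePoint (ZMod q)) with hy
  set c := D.VaCorr.coc (ξ.out)⁻¹ (OnePoint.infty : OnePoint (ZMod q)) with hc
  have h2 : D.VaCorr.ι₂ = s16lbIota M := D.VaCorr_ι₂
  rw [h2] at h
  have h3 : s16lbIota (M * q) c = s16lbIota M (s41hkIncl M q c) := rfl
  rw [h3, ← map_mul] at h
  have h4 : (ξ.out)⁻¹ = s41hkIncl M q c * D.beta y := s16lbIota_injective M h
  refine ⟨y, ?_⟩
  unfold s35newMatch
  rw [← QuotientGroup.out_eq' ξ, QuotientGroup.eq, Subgroup.mem_subgroupOf]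
  have h5 : (((D.beta y)⁻¹)⁻¹ * ξ.out : Gamma0 M) = (s41hkIncl M q c)⁻¹ := by
    rw [inv_inv]
    have : ξ.out = (s41hkIncl M q c * D.beta y)⁻¹ := by rw [← h4, inv_inv]
    rw [this, mul_inv_rev, mul_inv_cancel_left]
  rw [h5]
  exact (Gamma0 (M * q)).inv_mem c.2

variable [Fintype (S35natQ (Gamma0 (M * q)) (Gamma0 M))]

include D in
theorem s35new_card_Q :
    Fintype.card (S35natQ (Gamma0 (M * q)) (Gamma0 M)) = Fintype.card (OnePoint (ZMod q)) :=
  (Fintype.card_of_bijective ⟨s35newMatch_injective D, s35newMatch_surjective D⟩).symm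

/-- **NAT's transfer is main's transfer.** -/
theorem s35new_natCorr_trAb_eq : (s35newNatCorr M q).trAb = D.Va := by
  refine D.VaCorr.trAb_eq_of_matching (s35newNatCorr M q) rfl rfl D.VaCorr_distinct
    (s35new_card_Q D) ?_
  intro x
  obtain ⟨c, hc⟩ := s35newMatch_out D x
  refine ⟨s35newMatch D x, c⁻¹, ?_⟩
  show s16lbIota M ((s35newMatch D x).out)⁻¹ = D.VaCorr.ι₁ c⁻¹ * D.VaCorr.α x
  rw [D.VaCorr_α, D.VaCorr_ι₁, hc]
  have : s16lbIota (M * q) c⁻¹ = s16lbIota M (s41hkIncl M q c)⁻¹ := by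
    rw [← map_inv]
    rfl
  rw [this, ← map_mul, mul_inv_rev, inv_inv]

end Match

section Character

variable [Fact q.Prime] (D : S41hkAL M q) [Fintype (S35natQ (Gamma0 (M * q)) (Gamma0 M))]
  {A : Type*} [CommGroup A]

/-- **the bridge.**  For every character `χ` of `Γ₀(M q)` with values in a commutative group,
NAT's transfer of `χ` is `χ^ab ∘ D.Va`. -/
theorem s35new_natTransfer_eq (χ : Gamma0 (M * q) →* A) (γ : Gamma0 M) :
    Additive.ofMul (s35natTransfer χ γ)
      = s16lbDesc (MonoidHom.toAdditive χ) (D.Va (s16lbCls M (Additive.ofMul γ))) := by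
  have h1 : s16lbCls M (Additive.ofMul γ) = Additive.ofMul (Abelianization.of γ) := rfl
  rw [h1, ← s35new_natCorr_trAb_eq D, s35newNatCorr_trAb_of, map_sum, s35natTransfer_apply,
    ofMul_prod]
  refine Finset.sum_congr rfl fun ξ _ => ?_
  have h2 : Additive.ofMul (Abelianization.of (s35natCoc γ ξ))
      = s16lbCls (M * q) (Additive.ofMul (s35natCoc γ ξ)) := rfl
  rw [h2, s16lbDesc_cls]
  rfl

/-- if `ω` kills the image of `D.Va`, the transfer of the character `γ ↦ ω [γ]` is trivial. -/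
theorem s35new_natTransfer_eq_one (ω : s16lbAb (M * q) →+ Additive A) (hω : ω.comp D.Va = 0)
    (χ : Gamma0 (M * q) →* A)
    (hχ : ∀ c : Gamma0 (M * q), Additive.ofMul (χ c) = ω (s16lbCls (M * q) (Additive.ofMul c)))
    (γ : Gamma0 M) : s35natTransfer χ γ = 1 := by
  have h1 : s16lbDesc (MonoidHom.toAdditive χ) = ω := by
    refine s16lbAb_ext fun c => ?_
    rw [s16lbDesc_cls]
    exact hχ (Additive.toMul c)
  have h2 := s35new_natTransfer_eq D χ γ
  rw [h1] at h2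
  have h3 : ω (D.Va (s16lbCls M (Additive.ofMul γ))) = 0 := by
    have := DFunLike.congr_fun hω (s16lbCls M (Additive.ofMul γ))
    simpa using this
  rw [h3] at h2
  exact h2

end Character

section Phi

variable [Fact q.Prime] (D : S41hkAL M q) {A : Type*} [CommGroup A]

/-- conjugation by the Atkin–Lehner matrix `w = [q, 1; M q s, q t]` as an endomorphism of
`Γ₀(M q)`: `w γ = (s35newWHom D γ) w`. -/
def s35newWHom : Gamma0 (M * q) →* Gamma0 (M * q) :=
  s41hkConjHom D.w.mat_det_ne_zero D.w.conjugates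

theorem s35newWHom_spec (γ : Gamma0 (M * q)) :
    D.w.mat * ((γ : SL(2, ℤ)) : Matrix (Fin 2) (Fin 2) ℤ)
      = ((s35newWHom D γ : SL(2, ℤ)) : Matrix (Fin 2) (Fin 2) ℤ) * D.w.mat :=
  s41hkConjFun_spec D.w.conjugates γ

/-- `W [γ] = [w γ w⁻¹]`. -/
theorem s35new_W_cls (γ : Gamma0 (M * q)) :
    D.W (s16lbCls (M * q) (Additive.ofMul γ))
      = s16lbCls (M * q) (Additive.ofMul (s35newWHom D γ)) :=
  s41hkConjAb_of D.w.mat_det_ne_zero D.w.conjugates γ

/-- `(χ ∘ conj_w)^ab = χ^ab ∘ W`. -/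
theorem s35new_desc_comp_W (χ : Gamma0 (M * q) →* A) :
    s16lbDesc (MonoidHom.toAdditive (χ.comp (s35newWHom D)))
      = (s16lbDesc (MonoidHom.toAdditive χ)).comp D.W := by
  refine s16lbAb_ext fun c => ?_
  rw [s16lbDesc_cls, AddMonoidHom.comp_apply]
  have h : D.W (s16lbCls (M * q) c)
      = s16lbCls (M * q) (Additive.ofMul (s35newWHom D (Additive.toMul c))) :=
    s35new_W_cls D (Additive.toMul c)
  rw [h, s16lbDesc_cls]
  rfl

variable [Fintype (S35natQ (Gamma0 (M * q)) (Gamma0 M))]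

/-- **the bridge, `φ`-half.**  NAT's transfer of `χ ∘ conj_w` is `χ^ab ∘ D.Vb`. -/
theorem s35new_natTransfer_W_eq (χ : Gamma0 (M * q) →* A) (γ : Gamma0 M) :
    Additive.ofMul (s35natTransfer (χ.comp (s35newWHom D)) γ)
      = s16lbDesc (MonoidHom.toAdditive χ) (D.Vb (s16lbCls M (Additive.ofMul γ))) := by
  rw [s35new_natTransfer_eq D, s35new_desc_comp_W D χ]
  rfl

/-- if `ω` kills the image of `D.Vb`, the transfer of the character `γ ↦ ω [w γ w⁻¹]` is trivial. -/
theorem s35new_natTransfer_W_eq_one (ω : s16lbAb (M * q) →+ Additive A) (hω : ω.comp D.Vb = 0)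
    (χ : Gamma0 (M * q) →* A)
    (hχ : ∀ c : Gamma0 (M * q), Additive.ofMul (χ c) = ω (s16lbCls (M * q) (Additive.ofMul c)))
    (γ : Gamma0 M) : s35natTransfer (χ.comp (s35newWHom D)) γ = 1 := by
  have h1 : s16lbDesc (MonoidHom.toAdditive χ) = ω := by
    refine s16lbAb_ext fun c => ?_
    rw [s16lbDesc_cls]
    exact hχ (Additive.toMul c)
  have h2 := s35new_natTransfer_W_eq D χ γ
  rw [h1] at h2
  have h3 : ω (D.Vb (s16lbCls M (Additive.ofMul γ))) = 0 := by
    have := DFunLike.congr_fun hω (s16lbCls M (Additive.ofMul γ))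
    simpa using this
  rw [h3] at h2
  exact h2

end Phi

end Fermat.Agent.S35
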