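/-
Program S35 / T, glue between NAT (helper22, `S35/Nat/AL.lean`) and NEW-0 (helper13,
`S35/New/Bridge.lean`): THE TWO ATKIN–LEHNER CONJUGATIONS AGREE ON CHARACTERS.

helper22's conjugation `s35natConjW M q hq hqM : Γ₀(M q) →* Γ₀(M q)` is `c ↦ W c W⁻¹` for
`W = γ₀ diag(q, 1) = [a q, b; M q, q]` (`a q - b M = 1`), mine `s35newWHom D` is `c ↦ w c w⁻¹` for
main's `w = D.w.mat = [q, 1; M q s, q t]` (`q t - M s = 1`).  Then `W = δ w` with

  `δ = [a q t - b M s, b - a; M q (t - s), q - M] ∈ Γ₀(M q)`,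

so `W c W⁻¹ = δ (w c w⁻¹) δ⁻¹` and a character with values in a commutative group does not see `δ`.

* `s35new_conjW_comp` : `χ.comp (s35natConjW M q hq hqM) = χ.comp (s35newWHom D)`.
-/
import Fermat.Agent.S35.Nat.AL
import Fermat.Agent.S35.New.Bridge

set_option autoImplicit false
set_option linter.unusedSectionVars false
set_option linter.unusedVariables false

noncomputable section

namespace Fermat.Agent.S35

open Fermat.Agent.S16LB Fermat.Agent.G Fermat.Agent.S41 Fermat.Agent.S23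
open CongruenceSubgroup
open scoped MatrixGroups

section

variable (M q : ℕ) [NeZero M] [NeZero q] (hq : q.Prime) (hqM : ¬ q ∣ M)

/-- helper22's Atkin–Lehner matrix `W = γ₀ diag(q, 1) = [a q, b; M q, q]`, over `ℤ`. -/
def s35newW22 : Matrix (Fin 2) (Fin 2) ℤ :=
  !![s35natA M q hq hqM * q, s35natB M q hq hqM; (M : ℤ) * q, (q : ℤ)]

theorem s35newW22_det : (s35newW22 M q hq hqM).det = q := by
  rw [s35newW22, Matrix.det_fin_two_of]
  linear_combination (q : ℤ) * s35nat_bezout M q hq hqM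

theorem s35newW22_det_ne_zero : (s35newW22 M q hq hqM).det ≠ 0 := by
  rw [s35newW22_det]
  exact_mod_cast NeZero.ne q

/-- helper22's `W ∈ GL₂(ℝ)` is the integer matrix `s35newW22`. -/
theorem s35new_natWmat_eq :
    s35natWmat M q hq hqM
      = s41hkGL (s35newW22 M q hq hqM) (s35newW22_det_ne_zero M q hq hqM) := by
  apply Matrix.GeneralLinearGroup.ext
  intro i j
  unfold s35natWmat
  simp only [Matrix.GeneralLinearGroup.coe_mul, val_utGL (NeZero.ne q) one_ne_zero,
    Matrix.mul_apply, Fin.sum_univ_two, unstab_mapGL_apply, s41hkGL_val, Matrix.map_apply]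
  fin_cases i <;> fin_cases j <;> simp [s35natG0, s35newW22]

/-- `W c = (s35natConjW c) W` over `ℤ`. -/
theorem s35newW22_conj (c : Gamma0 (M * q)) :
    s35newW22 M q hq hqM * ((c : SL(2, ℤ)) : Matrix (Fin 2) (Fin 2) ℤ)
      = ((s35natConjW M q hq hqM c : SL(2, ℤ)) : Matrix (Fin 2) (Fin 2) ℤ)
          * s35newW22 M q hq hqM := by
  have h := s35natConjRaw_spec M q hq hqM c
  rw [s35new_natWmat_eq] at h
  exact s41hk_int_of_conj _ _ h

variable [Fact q.Prime] (D : S41hkAL M q)

/-- `δ = W w⁻¹`, over `ℤ`. -/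
def s35newDeltaMat : Matrix (Fin 2) (Fin 2) ℤ :=
  !![s35natA M q hq hqM * q * D.t - s35natB M q hq hqM * M * D.s,
      s35natB M q hq hqM - s35natA M q hq hqM;
    (M : ℤ) * q * (D.t - D.s), (q : ℤ) - M]

theorem s35newDeltaMat_det : (s35newDeltaMat M q hq hqM D).det = 1 := by
  rw [s35newDeltaMat, Matrix.det_fin_two_of]
  linear_combination (s35natA M q hq hqM * q - s35natB M q hq hqM * M) * D.h
    + s35nat_bezout M q hq hqM

/-- `δ ∈ Γ₀(M q)`. -/
def s35newDelta : Gamma0 (M * q) :=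
  ⟨⟨s35newDeltaMat M q hq hqM D, s35newDeltaMat_det M q hq hqM D⟩, by
    rw [Gamma0_mem, ZMod.intCast_zmod_eq_zero_iff_dvd]
    refine ⟨D.t - D.s, ?_⟩
    show s35newDeltaMat M q hq hqM D 1 0 = _
    simp [s35newDeltaMat]⟩

theorem s35newDelta_coe :
    ((s35newDelta M q hq hqM D : SL(2, ℤ)) : Matrix (Fin 2) (Fin 2) ℤ)
      = s35newDeltaMat M q hq hqM D := rfl

/-- `W = δ w`. -/
theorem s35newW22_eq : s35newW22 M q hq hqM = s35newDeltaMat M q hq hqM D * D.w.mat := by
  rw [D.w_mat, s35newW22, s35newDeltaMat]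
  ext i j
  fin_cases i <;> fin_cases j <;>
    simp [Matrix.mul_apply, Fin.sum_univ_two]
  · linear_combination (-(s35natA M q hq hqM * q)) * D.h
  · linear_combination (-(s35natB M q hq hqM)) * D.h
  · linear_combination (-((M : ℤ) * q)) * D.h
  · linear_combination (-(q : ℤ)) * D.h

/-- right cancellation of `w`. -/
theorem s35new_cancel_w {X Y : Matrix (Fin 2) (Fin 2) ℤ} (h : X * D.w.mat = Y * D.w.mat) :
    X = Y := by
  have h1 := congrArg (fun Z => Z * D.w.adj.mat) h
  simp only [Matrix.mul_assoc, D.w.mat_mul_adj] at h1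
  rw [Matrix.mul_smul, Matrix.mul_smul, Matrix.mul_one, Matrix.mul_one] at h1
  have hq0 : (q : ℤ) ≠ 0 := by exact_mod_cast NeZero.ne q
  exact smul_right_injective _ hq0 h1

/-- `(W c W⁻¹) δ = δ (w c w⁻¹)`. -/
theorem s35new_conjW_mul_delta (c : Gamma0 (M * q)) :
    s35natConjW M q hq hqM c * s35newDelta M q hq hqM D
      = s35newDelta M q hq hqM D * s35newWHom D c := by
  apply Subtype.ext
  apply Subtype.ext
  rw [Subgroup.coe_mul, Subgroup.coe_mul, Matrix.SpecialLinearGroup.coe_mul,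
    Matrix.SpecialLinearGroup.coe_mul, s35newDelta_coe]
  apply s35new_cancel_w M q D
  rw [Matrix.mul_assoc, ← s35newW22_eq, ← s35newW22_conj, s35newW22_eq M q hq hqM D,
    Matrix.mul_assoc, s35newWHom_spec, Matrix.mul_assoc]

/-- **the two Atkin–Lehner conjugations agree on characters.** -/
theorem s35new_conjW_comp {A : Type*} [CommGroup A] (χ : Gamma0 (M * q) →* A) :
    χ.comp (s35natConjW M q hq hqM) = χ.comp (s35newWHom D) := by
  refine MonoidHom.ext fun c => ?_
  have h2 : s35natConjW M q hq hqM c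
      = s35newDelta M q hq hqM D * s35newWHom D c * (s35newDelta M q hq hqM D)⁻¹ :=
    eq_mul_inv_of_mul_eq (s35new_conjW_mul_delta M q hq hqM D c)
  rw [MonoidHom.comp_apply, MonoidHom.comp_apply, h2, map_mul, map_mul, map_inv,
    mul_comm (χ (s35newDelta M q hq hqM D)), mul_assoc, mul_inv_cancel, mul_one]

end

end Fermat.Agent.S35

end
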